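/-
S16, block U5 (l ≥ 5), abstract algebra (Mathlib only).

* `not_exists_ratFunc`: no rational function `z` with `z ^ h * U = X ^ h` when `U ≠ 0` is a
  polynomial all of whose exponents lie strictly between `0` and `h`.
* `exists_poly_of_relation`: from an isobaric relation `1 ∈ span {x^a y^b | 2a + 3b = h}` the
  quotient `z = y / x` satisfies `z ^ h * U(w) = w ^ h`, `w = y² / x³`, with such a `U`.
* `not_mem_adjoin_of_relation`: hence `y / x ∉ k(w)` when `w` is transcendental.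
* `not_exists_artinSchreier`: no rational function `Y` with `Y ^ 3 - Y = 1 / X` (for (U3')).
-/
import Mathlib

set_option autoImplicit false

open Polynomial

namespace Fermat.Agent.S16.U5

section RatFunc

variable {k : Type*} [Field k]

theorem natTrailingDegree_pow' {p : k[X]} (hp : p ≠ 0) (n : ℕ) :
    (p ^ n).natTrailingDegree = n * p.natTrailingDegree := by
  induction n with
  | zero => simp
  | succ n ih =>
    rw [pow_succ, natTrailingDegree_mul (pow_ne_zero n hp) hp, ih]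
    ring

/-- No rational function `z` satisfies `z ^ h * U = X ^ h` if `U ≠ 0` has all its exponents
strictly between `0` and `h`. -/
theorem not_exists_ratFunc {h : ℕ} {U : k[X]} (hU : U ≠ 0)
    (hsupp : ∀ n ∈ U.support, 0 < n ∧ n < h) :
    ¬ ∃ z : RatFunc k, z ^ h * algebraMap k[X] (RatFunc k) U = (RatFunc.X : RatFunc k) ^ h := by
  rintro ⟨z, hz⟩
  have hμ := hsupp _ (natTrailingDegree_mem_support_of_nonzero hU)
  set P := z.num with hP
  set Q := z.denom with hQ
  have hQ0 : Q ≠ 0 := z.denom_ne_zero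
  have hzPQ : z = algebraMap k[X] (RatFunc k) P / algebraMap k[X] (RatFunc k) Q :=
    (RatFunc.num_div_denom z).symm
  have hQ0' : algebraMap k[X] (RatFunc k) Q ≠ 0 := by
    rwa [Ne, map_eq_zero_iff _ (IsFractionRing.injective k[X] (RatFunc k))]
  -- polynomial identity
  have hpoly : P ^ h * U = X ^ h * Q ^ h := by
    apply IsFractionRing.injective k[X] (RatFunc k)
    rw [map_mul, map_mul, map_pow, map_pow, map_pow, RatFunc.algebraMap_X, ← hz, hzPQ, div_pow]
    field_simp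
  have hP0 : P ≠ 0 := by
    intro hP0
    rw [hP0, zero_pow (by omega : h ≠ 0), zero_mul] at hpoly
    exact (mul_ne_zero (pow_ne_zero h X_ne_zero) (pow_ne_zero h hQ0)) hpoly.symm
  have hdeg := congrArg natTrailingDegree hpoly
  rw [natTrailingDegree_mul (pow_ne_zero h hP0) hU,
    natTrailingDegree_mul (pow_ne_zero h X_ne_zero) (pow_ne_zero h hQ0),
    natTrailingDegree_pow' hP0, natTrailingDegree_pow' hQ0, natTrailingDegree_X_pow] at hdeg
  -- h ∣ μ
  have hdvd : h ∣ U.natTrailingDegree := by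
    have h1 : h ∣ h * P.natTrailingDegree + U.natTrailingDegree := by
      rw [hdeg]
      exact Dvd.dvd.add (dvd_refl h) (Dvd.intro _ rfl)
    exact (Nat.dvd_add_right (Dvd.intro _ rfl)).mp h1
  have := Nat.le_of_dvd hμ.1 hdvd
  omega

/-- No rational function `Y` satisfies `(Y ^ 3 - Y) * X = 1` (Artin–Schreier at a simple pole). -/
theorem not_exists_artinSchreier :
    ¬ ∃ Y : RatFunc k, (Y ^ 3 - Y) * (RatFunc.X : RatFunc k) = 1 := by
  rintro ⟨Y, hY⟩
  set P := Y.num with hP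
  set Q := Y.denom with hQ
  have hQ0 : Q ≠ 0 := Y.denom_ne_zero
  have hYPQ : Y = algebraMap k[X] (RatFunc k) P / algebraMap k[X] (RatFunc k) Q :=
    (RatFunc.num_div_denom Y).symm
  have hQ0' : algebraMap k[X] (RatFunc k) Q ≠ 0 := by
    rwa [Ne, map_eq_zero_iff _ (IsFractionRing.injective k[X] (RatFunc k))]
  have hpoly : (P ^ 3 - P * Q ^ 2) * X = Q ^ 3 := by
    apply IsFractionRing.injective k[X] (RatFunc k)
    have h1 : (algebraMap k[X] (RatFunc k) Q) ^ 3 * ((Y ^ 3 - Y) * RatFunc.X) =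
        (algebraMap k[X] (RatFunc k) Q) ^ 3 := by rw [hY, mul_one]
    rw [map_mul, map_sub, map_pow, map_mul, map_pow, map_pow, RatFunc.algebraMap_X, ← h1, hYPQ]
    field_simp
  have hcop : IsCoprime P Q := Y.isCoprime_num_denom
  -- X ∣ Q
  have hXQ3 : (X : k[X]) ∣ Q ^ 3 := ⟨P ^ 3 - P * Q ^ 2, by rw [← hpoly]; ring⟩
  have hXQ : (X : k[X]) ∣ Q := Polynomial.prime_X.dvd_of_dvd_pow hXQ3
  obtain ⟨Q1, hQ1⟩ := hXQ
  -- then X ∣ P ^ 3, so X ∣ P
  have hXP : (X : k[X]) ∣ P := by
    have h2 : (P ^ 3 - P * Q ^ 2) * X = X * (X ^ 2 * Q1 ^ 3) := by rw [hpoly, hQ1]; ring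
    have h3 : P ^ 3 - P * Q ^ 2 = X ^ 2 * Q1 ^ 3 := by
      have := mul_left_cancel₀ (X_ne_zero (R := k)) (by rw [← h2]; ring :
        X * (P ^ 3 - P * Q ^ 2) = X * (X ^ 2 * Q1 ^ 3))
      exact this
    have h4 : (X : k[X]) ∣ P ^ 3 := by
      have : P ^ 3 = X ^ 2 * Q1 ^ 3 + P * Q ^ 2 := by rw [← h3]; ring
      rw [this, hQ1]
      exact ⟨X * Q1 ^ 3 + P * X * Q1 ^ 2, by ring⟩
    exact Polynomial.prime_X.dvd_of_dvd_pow h4
  have hunit : IsUnit (X : k[X]) := hcop.isUnit_of_dvd' hXP ⟨Q1, hQ1⟩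
  exact Polynomial.not_isUnit_X hunit

end RatFunc

section Relation

variable {k L : Type*} [Field k] [Field L] [Algebra k L]

/-- The isobaric monomials `x ^ a * y ^ b` with `2 a + 3 b = h` (weight `2 h` for weights
`4, 6`). -/
def isoMonos (x y : L) (h : ℕ) : Set L :=
  {m | ∃ a b : ℕ, 2 * a + 3 * b = h ∧ m = x ^ a * y ^ b}

/-- From an isobaric relation to a polynomial equation for `z = y / x` over `k[w]`,
`w = y ^ 2 / x ^ 3`. -/
theorem exists_poly_of_relation {x y : L} (hx : x ≠ 0) (hy : y ≠ 0) {h : ℕ} (hh : 0 < h)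
    (hrel : (1 : L) ∈ Submodule.span k (isoMonos x y h)) :
    ∃ U : k[X], U ≠ 0 ∧ (∀ n ∈ U.support, 0 < n ∧ n < h) ∧
      (y / x) ^ h * aeval (y ^ 2 / x ^ 3) U = (y ^ 2 / x ^ 3) ^ h := by
  have key : ∀ v ∈ Submodule.span k (isoMonos x y h),
      ∃ U : k[X], (∀ n ∈ U.support, 0 < n ∧ n < h) ∧
        (y / x) ^ h * aeval (y ^ 2 / x ^ 3) U = (y ^ 2 / x ^ 3) ^ h * v := by
    intro v hv
    induction hv using Submodule.span_induction with
    | mem v hv =>
      obtain ⟨a, b, hab, rfl⟩ := hv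
      refine ⟨X ^ (a + 2 * b), ?_, ?_⟩
      · intro n hn
        rw [Polynomial.support_X_pow (a + 2 * b), Finset.mem_singleton] at hn
        omega
      · rw [map_pow, aeval_X, ← hab]
        have hxi : x⁻¹ * x = 1 := inv_mul_cancel₀ hx
        have e1 : (x⁻¹) ^ (6 * a + 9 * b) * x ^ a = (x⁻¹) ^ (5 * a + 9 * b) := by
          rw [show 6 * a + 9 * b = (5 * a + 9 * b) + a by ring, pow_add, mul_assoc, ← mul_pow,
            hxi, one_pow, mul_one]
        calc (y / x) ^ (2 * a + 3 * b) * (y ^ 2 / x ^ 3) ^ (a + 2 * b)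
            = y ^ (4 * a + 7 * b) * (x⁻¹) ^ (5 * a + 9 * b) := by
              rw [div_eq_mul_inv, div_eq_mul_inv, ← inv_pow]; ring
          _ = y ^ (4 * a + 7 * b) * ((x⁻¹) ^ (6 * a + 9 * b) * x ^ a) := by rw [e1]
          _ = (y ^ 2 / x ^ 3) ^ (2 * a + 3 * b) * (x ^ a * y ^ b) := by
              rw [div_eq_mul_inv, ← inv_pow]; ring
    | zero => exact ⟨0, by simp, by simp⟩
    | add u v _ _ hu hv =>
      obtain ⟨U1, hU1, h1⟩ := hu
      obtain ⟨U2, hU2, h2⟩ := hv
      refine ⟨U1 + U2, fun n hn => ?_, by rw [map_add, mul_add, h1, h2, mul_add]⟩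
      rcases Finset.mem_union.mp (Polynomial.support_add hn) with h' | h'
      · exact hU1 n h'
      · exact hU2 n h'
    | smul c v _ hv =>
      obtain ⟨U1, hU1, h1⟩ := hv
      refine ⟨c • U1, fun n hn => hU1 n (Polynomial.support_smul c U1 hn), ?_⟩
      rw [map_smul, mul_smul_comm, h1, mul_smul_comm]
  obtain ⟨U, hU, hU1⟩ := key 1 hrel
  refine ⟨U, ?_, hU, by rw [hU1, mul_one]⟩
  rintro rfl
  rw [map_zero, mul_zero, mul_one] at hU1
  exact (pow_ne_zero h (div_ne_zero (pow_ne_zero 2 hy) (pow_ne_zero 3 hx))) hU1.symm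

/-- **Step 3 of (U5)**: under an isobaric relation of positive weight, `y / x` is not a rational
function of `w = y ^ 2 / x ^ 3` (when `w` is transcendental). -/
theorem not_mem_adjoin_of_relation {x y : L} (hx : x ≠ 0) (hy : y ≠ 0) {h : ℕ} (hh : 0 < h)
    (hrel : (1 : L) ∈ Submodule.span k (isoMonos x y h))
    (hw : Transcendental k (y ^ 2 / x ^ 3)) :
    y / x ∉ IntermediateField.adjoin k {y ^ 2 / x ^ 3} := by
  intro hz
  obtain ⟨U, hU0, hUs, hU⟩ := exists_poly_of_relation hx hy hh hrel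
  apply not_exists_ratFunc hU0 hUs
  refine ⟨(RatFunc.algEquivOfTranscendental _ hw).symm ⟨y / x, hz⟩, ?_⟩
  -- the equation inside the intermediate field
  have hsub : (⟨y / x, hz⟩ : IntermediateField.adjoin k {y ^ 2 / x ^ 3}) ^ h *
      aeval (IntermediateField.AdjoinSimple.gen k (y ^ 2 / x ^ 3)) U =
      (IntermediateField.AdjoinSimple.gen k (y ^ 2 / x ^ 3)) ^ h := by
    apply Subtype.ext
    push_cast
    rw [← IntermediateField.aeval_coe, IntermediateField.AdjoinSimple.coe_gen]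
    exact hU
  have := congrArg (RatFunc.algEquivOfTranscendental _ hw).symm hsub
  rwa [map_mul, map_pow, map_pow, RatFunc.algEquivOfTranscendental_symm_aeval,
    RatFunc.algEquivOfTranscendental_symm_gen] at this

end Relation

end Fermat.Agent.S16.U5
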