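/-
S16, block U5 (l ≥ 5), level-one input, part 2: integral `q`-series of level one.
`e4`, `e6`, `Δ = q ∏ (1 - q^n)^24` as integer power series, the identity
`e4 ^ 3 - e6 ^ 2 = 1728 Δ`, and the structure theorem with bounded denominators:
a level-one form of weight `k` with integral `q`-expansion `f` satisfies
`1728 ^ m • f ∈ span_ℤ {e4 ^ a * e6 ^ b | 4 a + 6 b = k}` for some `m`.
-/
import Mathlib
import Fermat.Prelude.Def_ModularCurve_X0
import Fermat.Agent.S24.JQExp

set_option autoImplicit false

open UpperHalfPlane ModularForm EisensteinSeries ModularFormClass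
open scoped MatrixGroups ArithmeticFunction.sigma

namespace Fermat.Agent.S16.U5

noncomputable section

local notation "castC" => Int.castRingHom ℂ

/-- The integral `q`-series of `E₄` (the Prelude's). -/
abbrev e4 : PowerSeries ℤ := ModularCurve.eisenstein4

/-- The integral `q`-series of `E₆`. -/
def e6 : PowerSeries ℤ :=
  PowerSeries.mk fun n => if n = 0 then 1 else -504 * ∑ d ∈ n.divisors, (d : ℤ) ^ 5

/-- The integral `q`-series of `Δ`. -/
abbrev deltaS : PowerSeries ℤ := PowerSeries.X * ModularCurve.dedekindEtaUnit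

theorem map_castC_injective : Function.Injective (PowerSeries.map castC) := by
  intro f g h
  ext n
  have := congrArg (PowerSeries.coeff n) h
  simpa using this

theorem qExpansion_E4 : qExpansion 1 E₄ = e4.map castC :=
  Fermat.Agent.S24.JQExp.qExpansion_E₄

theorem qExpansion_E6 : qExpansion 1 E₆ = e6.map castC := by
  ext n
  rw [E_qExpansion_coeff _ ⟨3, rfl⟩, PowerSeries.coeff_map, e6,
    PowerSeries.coeff_mk, show bernoulli 6 = 1 / 42 by decide +kernel]
  split_ifs with hn
  · simp
  · simp only [eq_intCast, ArithmeticFunction.sigma_apply]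
    push_cast
    ring

theorem qExpansion_Delta :
    qExpansion 1 ModularForm.discriminant = deltaS.map castC :=
  Fermat.Agent.S24.JQExp.qExpansion_discriminant

/-- `E₄³ - E₆²` as a level-one form of weight 12. -/
def e4CubeSubE6Sq : ModularForm 𝒮ℒ 12 :=
  ModularForm.mcast (by decide) (E₄.pow 3) - ModularForm.mcast (by decide) (E₆.pow 2)

theorem e4CubeSubE6Sq_apply (z : ℍ) : e4CubeSubE6Sq z = E₄ z ^ 3 - E₆ z ^ 2 := by
  simp only [e4CubeSubE6Sq, coe_mcast, coe_pow, sub_apply, Pi.pow_apply]

theorem qExpansion_e4CubeSubE6Sq :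
    qExpansion 1 e4CubeSubE6Sq = (e4 ^ 3 - e6 ^ 2).map castC := by
  simp only [e4CubeSubE6Sq, FunLike.coe_sub, coe_mcast,
    ModularForm.qExpansion_sub one_pos one_mem_strictPeriods_SL,
    ModularForm.qExpansion_pow one_pos one_mem_strictPeriods_SL, qExpansion_E4, qExpansion_E6,
    map_sub, map_pow]

theorem e4CubeSubE6Sq_eq : (e4CubeSubE6Sq : ℍ → ℂ) = ((1728 : ℂ) • CuspForm.discriminant : CuspForm 𝒮ℒ 12) := by
  funext z
  rw [e4CubeSubE6Sq_apply]
  have h := discriminant_eq_E₄_cube_sub_E₆_sq z
  change _ = (1728 : ℂ) * ModularForm.discriminant z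
  rw [h]
  ring

/-- The integral identity `E₄³ - E₆² = 1728 Δ` for `q`-series. -/
theorem e4_cube_sub_e6_sq : e4 ^ 3 - e6 ^ 2 = PowerSeries.C (1728 : ℤ) * deltaS := by
  apply map_castC_injective
  rw [← qExpansion_e4CubeSubE6Sq, e4CubeSubE6Sq_eq, FunLike.coe_smul,
    ModularForm.qExpansion_smul one_pos one_mem_strictPeriods_SL, map_mul]
  have h : qExpansion 1 (CuspForm.discriminant : CuspForm 𝒮ℒ 12) = deltaS.map castC :=
    qExpansion_Delta
  rw [h, PowerSeries.map_C]
  simp [PowerSeries.smul_eq_C_mul]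

/-! ### The structure theorem -/

/-- The monomials `e4 ^ a * e6 ^ b` of weight `k`. -/
def monoSet (k : ℤ) : Set (PowerSeries ℤ) :=
  {m | ∃ a b : ℕ, (4 * (a : ℤ) + 6 * (b : ℤ)) = k ∧ m = e4 ^ a * e6 ^ b}

/-- The form `E₄ ^ a * E₆ ^ b`. -/
def monoForm (a b : ℕ) : ModularForm 𝒮ℒ ((a : ℤ) * 4 + (b : ℤ) * 6) :=
  (E₄.pow a).mul (E₆.pow b)

theorem qExpansion_monoForm (a b : ℕ) :
    qExpansion 1 (monoForm a b) = (e4 ^ a * e6 ^ b).map castC := by
  rw [monoForm, ModularForm.qExpansion_mul one_pos one_mem_strictPeriods_SL,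
    ModularForm.qExpansion_pow one_pos one_mem_strictPeriods_SL,
    ModularForm.qExpansion_pow one_pos one_mem_strictPeriods_SL, qExpansion_E4, qExpansion_E6,
    map_mul, map_pow, map_pow]

theorem constantCoeff_e6 : PowerSeries.constantCoeff e6 = 1 := by
  rw [← PowerSeries.coeff_zero_eq_constantCoeff]
  simp [e6]

theorem constantCoeff_mono (a b : ℕ) : PowerSeries.constantCoeff (e4 ^ a * e6 ^ b) = 1 := by
  simp [constantCoeff_e6]

theorem eq_zero_of_map_eq_zero {f : PowerSeries ℤ} (h : f.map castC = 0) : f = 0 :=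
  map_castC_injective (by rw [h, map_zero])

theorem deltaS_ne_zero : deltaS ≠ 0 := by
  intro h
  have h1 := congrArg (PowerSeries.coeff 1) h
  rw [deltaS, PowerSeries.coeff_succ_X_mul, PowerSeries.coeff_zero_eq_constantCoeff,
    ModularCurve.constantCoeff_dedekindEtaUnit] at h1
  simp at h1

/-- existence of a monomial of a given even weight `k ≥ 0`, `k ≠ 2`. -/
theorem exists_mono_weight {k : ℤ} (hk0 : 0 ≤ k) (hk2 : k ≠ 2) (hev : Even k) :
    ∃ a b : ℕ, (a : ℤ) * 4 + (b : ℤ) * 6 = k := by
  obtain ⟨r, hr⟩ := hev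
  have hr0 : 0 ≤ r := by omega
  have hr1 : r ≠ 1 := by omega
  -- k = 2 r, need 2 a + 3 b = r
  rcases Int.emod_two_eq_zero_or_one r with h | h
  · refine ⟨(r / 2).toNat, 0, ?_⟩
    have : 0 ≤ r / 2 := by omega
    rw [Int.toNat_of_nonneg this]
    omega
  · refine ⟨((r - 3) / 2).toNat, 1, ?_⟩
    have : 0 ≤ (r - 3) / 2 := by omega
    rw [Int.toNat_of_nonneg this]
    omega

/-- **Structure theorem with bounded denominators**: a level-one form of weight `k` with
integral `q`-expansion `f` has `1728 ^ m • f` in the `ℤ`-span of the monomials of weight `k`. -/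
theorem exists_pow_smul_mem_span (n : ℕ) : ∀ (k : ℤ), k.toNat = n → ∀ (F : ModularForm 𝒮ℒ k)
    (f : PowerSeries ℤ), qExpansion 1 F = f.map castC →
    ∃ m : ℕ, ((1728 : ℤ) ^ m) • f ∈ Submodule.span ℤ (monoSet k) := by
  induction n using Nat.strong_induction_on with
  | _ n ih =>
  intro k hkn F f hf
  -- trivial cases: F = 0
  have hzero : F = 0 → ∃ m : ℕ, ((1728 : ℤ) ^ m) • f ∈ Submodule.span ℤ (monoSet k) := by
    intro hF
    refine ⟨0, ?_⟩
    have : f = 0 := by
      apply eq_zero_of_map_eq_zero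
      rw [← hf, hF]
      exact qExpansion_zero 1
    rw [this, smul_zero]
    exact Submodule.zero_mem _
  by_cases hneg : k < 0
  · exact hzero (DFunLike.coe_injective (by
      rw [levelOne_neg_weight_eq_zero hneg F]; rfl))
  push Not at hneg
  rcases Int.even_or_odd k with hev | hodd
  swap
  · exact hzero (ModularForm.levelOne_odd_weight_eq_zero hodd F)
  by_cases hk2 : k = 2
  · subst hk2
    exact hzero (rank_zero_iff_forall_zero.mp ModularForm.levelOne_weight_two_rank_zero F)
  obtain ⟨a, b, hab⟩ := exists_mono_weight hneg hk2 hev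
  -- the cuspidal part
  set c : ℤ := PowerSeries.constantCoeff f with hc
  set G : ModularForm 𝒮ℒ k := F - (c : ℂ) • ModularForm.mcast hab (monoForm a b) rfl with hG
  set g : PowerSeries ℤ := f - PowerSeries.C c * (e4 ^ a * e6 ^ b) with hg
  have hGg : qExpansion 1 G = g.map castC := by
    rw [hG, FunLike.coe_sub, ModularForm.qExpansion_sub one_pos one_mem_strictPeriods_SL,
      FunLike.coe_smul, ModularForm.qExpansion_smul one_pos one_mem_strictPeriods_SL,
      ModularForm.qExpansion_mcast, qExpansion_monoForm, hf, hg]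
    rw [map_sub, map_mul (PowerSeries.map castC) (PowerSeries.C c), PowerSeries.map_C,
      PowerSeries.smul_eq_C_mul]
    simp
  have hg0 : PowerSeries.constantCoeff g = 0 := by
    rw [hg, map_sub, map_mul, constantCoeff_mono, PowerSeries.constantCoeff_C, mul_one, hc,
      sub_self]
  have hcusp : (qExpansion 1 G).coeff 0 = 0 := by
    rw [hGg, PowerSeries.coeff_map, PowerSeries.coeff_zero_eq_constantCoeff, hg0]
    simp
  have hmono : e4 ^ a * e6 ^ b ∈ monoSet k := ⟨a, b, by omega, rfl⟩
  have hfg : f = g + PowerSeries.C c * (e4 ^ a * e6 ^ b) := by rw [hg]; ring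
  by_cases hk12 : k < 12
  · -- no cusp forms
    have hG0 : ModularForm.toCuspForm G hcusp = 0 :=
      rank_zero_iff_forall_zero.mp (CuspForm.rank_eq_zero_of_weight_lt_twelve hk12) _
    have hg0' : g = 0 := by
      apply eq_zero_of_map_eq_zero
      rw [← hGg]
      have : (G : ℍ → ℂ) = 0 := by
        funext z
        have := congrArg (fun h : CuspForm 𝒮ℒ k => h z) hG0
        simpa [ModularForm.toCuspForm_apply] using this
      rw [this]
      exact qExpansion_zero 1
    refine ⟨0, ?_⟩
    rw [pow_zero, one_smul, hfg, hg0', zero_add, ← PowerSeries.smul_eq_C_mul]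
    exact Submodule.smul_mem _ _ (Submodule.subset_span hmono)
  · push Not at hk12
    -- divide by Δ
    set F2 : ModularForm 𝒮ℒ (k - 12) :=
      CuspForm.discriminantEquiv (ModularForm.toCuspForm G hcusp) with hF2
    have hfac := ModularForm.qExpansion_eq_qExpansion_discriminant_mul G hcusp
    rw [hGg, qExpansion_Delta, ← hF2] at hfac
    -- the integral quotient
    obtain ⟨g1, hg1⟩ : ∃ g1 : PowerSeries ℤ, g = PowerSeries.X * g1 := by
      have := (PowerSeries.X_dvd_iff (φ := g)).mpr hg0
      obtain ⟨g1, hg1⟩ := this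
      exact ⟨g1, hg1⟩
    set f2 : PowerSeries ℤ := g1 * ModularCurve.dedekindEtaUnitInv with hf2
    have hgf2 : g = deltaS * f2 := by
      rw [hg1, hf2, deltaS]
      calc PowerSeries.X * g1 = PowerSeries.X * g1 *
            (ModularCurve.dedekindEtaUnit * ModularCurve.dedekindEtaUnitInv) := by
              rw [ModularCurve.dedekindEtaUnit_mul_inv, mul_one]
        _ = _ := by ring
    have hF2q : qExpansion 1 F2 = f2.map castC := by
      have hne : deltaS.map castC ≠ 0 := fun h => deltaS_ne_zero (eq_zero_of_map_eq_zero h)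
      apply mul_left_cancel₀ hne
      rw [← hfac, hgf2, map_mul]
    have hlt : (k - 12).toNat < n := by omega
    obtain ⟨m, hm⟩ := ih _ hlt (k - 12) rfl F2 f2 hF2q
    refine ⟨m + 1, ?_⟩
    -- 1728^(m+1) f = (e4^3 - e6^2) * (1728^m f2) + 1728^(m+1) c mono
    have hkey : ((1728 : ℤ) ^ (m + 1)) • f =
        (e4 ^ 3 - e6 ^ 2) * (((1728 : ℤ) ^ m) • f2) +
          ((1728 : ℤ) ^ (m + 1) * c) • (e4 ^ a * e6 ^ b) := by
      rw [hfg, hgf2, e4_cube_sub_e6_sq]
      simp only [zsmul_eq_mul, Int.cast_mul, Int.cast_pow]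
      have h1728 : ((1728 : ℤ) : PowerSeries ℤ) = PowerSeries.C (1728 : ℤ) := rfl
      have hcc : ((c : ℤ) : PowerSeries ℤ) = PowerSeries.C c :=
        (eq_intCast (PowerSeries.C (R := ℤ)) c).symm
      rw [h1728, hcc]
      ring
    rw [hkey]
    refine Submodule.add_mem _ ?_ (Submodule.smul_mem _ _ (Submodule.subset_span hmono))
    -- multiplication by e4^3 - e6^2 maps span (k-12) into span k
    have hmul : ∀ x ∈ Submodule.span ℤ (monoSet (k - 12)),
        (e4 ^ 3 - e6 ^ 2) * x ∈ Submodule.span ℤ (monoSet k) := by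
      intro x hx
      induction hx using Submodule.span_induction with
      | mem x hx =>
        obtain ⟨a', b', hab', rfl⟩ := hx
        rw [sub_mul]
        refine Submodule.sub_mem _ (Submodule.subset_span ⟨a' + 3, b', ?_, by ring⟩)
          (Submodule.subset_span ⟨a', b' + 2, ?_, by ring⟩)
        · push_cast; omega
        · push_cast; omega
      | zero => rw [mul_zero]; exact Submodule.zero_mem _
      | add x y _ _ hx hy => rw [mul_add]; exact Submodule.add_mem _ hx hy
      | smul r x _ hx => rw [mul_smul_comm]; exact Submodule.smul_mem _ _ hx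
    exact hmul _ hm

end

end Fermat.Agent.S16.U5
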