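/-
S16, block U5 (l ≥ 5), level-one input, part 1: von Staudt at the single prime `l`:
`l * B_{l-1}` is an `l`-adic unit (from Mathlib's `Bernoulli.vonStaudt_clausen`).
-/
import Mathlib

set_option autoImplicit false

namespace Fermat.Agent.S16.U5

open Finset

/-- For an odd prime `l`, the rational number `l * B_{l-1}` has `l`-adic valuation `1`
(i.e. it is an `l`-adic unit; in fact it is `≡ -1 mod l`). -/
theorem padicValuation_prime_mul_bernoulli (l : ℕ) [hl : Fact l.Prime] (hodd : l ≠ 2) :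
    Rat.padicValuation l ((l : ℚ) * bernoulli (l - 1)) = 1 := by
  have hlp : l.Prime := hl.out
  have hl2 : 2 ≤ l := hlp.two_le
  have hlodd : Odd l := hlp.odd_of_ne_two hodd
  obtain ⟨k, hk⟩ : ∃ k, l - 1 = 2 * k := by
    obtain ⟨m, hm⟩ := hlodd
    exact ⟨m, by omega⟩
  obtain ⟨n, hn⟩ := Bernoulli.vonStaudt_clausen k
  rw [← hk] at hn
  -- the index set
  set P : Finset ℕ := (range (l - 1 + 2)).filter fun p ↦ p.Prime ∧ (p - 1) ∣ (l - 1) with hP
  have hlP : l ∈ P := by
    rw [hP, mem_filter, mem_range]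
    exact ⟨by omega, hlp, dvd_rfl⟩
  have hsplit : ∑ p ∈ P, (1 : ℚ) / p = 1 / l + ∑ p ∈ P.erase l, (1 : ℚ) / p := by
    rw [← Finset.add_sum_erase P _ hlP]
  -- integrality of the remaining sum
  have hrest : Rat.padicValuation l (∑ p ∈ P.erase l, (1 : ℚ) / p) ≤ 1 := by
    refine Valuation.map_sum_le _ fun p hp ↦ ?_
    rw [mem_erase, hP, mem_filter] at hp
    have hpp : p.Prime := hp.2.2.1
    rw [one_div, map_inv₀, ← Int.cast_natCast, Rat.padicValuation_cast]
    have h1 : Int.padicValuation l (p : ℤ) = 1 := by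
      rw [Int.padicValuation_eq_one_iff, Int.natCast_dvd_natCast]
      intro hdvd
      exact hp.1 ((Nat.prime_dvd_prime_iff_eq hlp hpp).mp hdvd).symm
    rw [h1, inv_one]
  -- l * B = -1 + l * (n - rest)
  have hlne : (l : ℚ) ≠ 0 := Nat.cast_ne_zero.mpr hlp.ne_zero
  have hkey : (l : ℚ) * bernoulli (l - 1) =
      -1 + l * ((n : ℚ) - ∑ p ∈ P.erase l, (1 : ℚ) / p) := by
    have h := hn
    rw [hsplit] at h
    have hB : bernoulli (l - 1) = (n : ℚ) - 1 / l - ∑ p ∈ P.erase l, (1 : ℚ) / p := by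
      linarith
    rw [hB]
    field_simp
    ring
  have hsmall : Rat.padicValuation l (l * ((n : ℚ) - ∑ p ∈ P.erase l, (1 : ℚ) / p)) < 1 := by
    rw [map_mul]
    have h1 : Rat.padicValuation l (l : ℚ) < 1 := by
      rw [Rat.padicValuation_self, ← WithZero.exp_zero, WithZero.exp_lt_exp]
      norm_num
    have h2 : Rat.padicValuation l ((n : ℚ) - ∑ p ∈ P.erase l, (1 : ℚ) / p) ≤ 1 := by
      refine Valuation.map_sub_le _ ?_ hrest
      rw [Rat.padicValuation_cast]
      exact Int.padicValuation_le_one l n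
    calc Rat.padicValuation l (l : ℚ) *
          Rat.padicValuation l ((n : ℚ) - ∑ p ∈ P.erase l, (1 : ℚ) / p)
        ≤ Rat.padicValuation l (l : ℚ) * 1 := by gcongr
      _ < 1 := by rwa [mul_one]
  rw [hkey]
  have hneg : Rat.padicValuation l (-1 : ℚ) = 1 := by
    rw [Valuation.map_neg, map_one]
  rw [Valuation.map_add_eq_of_lt_left, hneg]
  rw [hneg]
  exact hsmall

end Fermat.Agent.S16.U5
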