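/-
S16, block U5 (l ≥ 5), level-one input, part 3: the isobaric relation of weight `l - 1`
between the reductions of `E₄` and `E₆` modulo a prime `l ≥ 5`
(`E_{l-1} ≡ 1 mod l` + structure theorem).
-/
import Mathlib
import Fermat.Agent.S16.U5.VonStaudt
import Fermat.Agent.S16.U5.Level1Series

set_option autoImplicit false

open UpperHalfPlane ModularForm EisensteinSeries ModularFormClass
open scoped MatrixGroups ArithmeticFunction.sigma

namespace Fermat.Agent.S16.U5

noncomputable section

local notation "castC" => Int.castRingHom ℂ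

/-- The series `∑_{n ≥ 1} σ_m(n) q^n` with integer coefficients. -/
def sigmaSeries (m : ℕ) : PowerSeries ℤ :=
  PowerSeries.mk fun n => if n = 0 then 0 else ((σ m n : ℕ) : ℤ)

/-- Reduction of integral power series modulo `l`. -/
abbrev redL (l : ℕ) : PowerSeries ℤ →+* PowerSeries (ZMod l) :=
  PowerSeries.map (Int.castRingHom (ZMod l))

/-- The monomials of weight `k` in the reductions of `e4`, `e6` modulo `l`. -/
def monoSetL (l : ℕ) (k : ℕ) : Set (PowerSeries (ZMod l)) :=
  {m | ∃ a b : ℕ, 4 * a + 6 * b = k ∧ m = (redL l e4) ^ a * (redL l e6) ^ b}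

theorem redL_mem_span {l : ℕ} {k : ℕ} {x : PowerSeries ℤ}
    (hx : x ∈ Submodule.span ℤ (monoSet (k : ℤ))) :
    redL l x ∈ Submodule.span (ZMod l) (monoSetL l k) := by
  induction hx using Submodule.span_induction with
  | mem x hx =>
    obtain ⟨a, b, hab, rfl⟩ := hx
    refine Submodule.subset_span ⟨a, b, by exact_mod_cast hab, ?_⟩
    rw [map_mul, map_pow, map_pow]
  | zero => rw [map_zero]; exact Submodule.zero_mem _
  | add x y _ _ hx hy => rw [map_add]; exact Submodule.add_mem _ hx hy
  | smul r x _ hx =>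
    rw [zsmul_eq_mul, map_mul, map_intCast]
    have : ((r : ℤ) : PowerSeries (ZMod l)) * redL l x = (r : ZMod l) • redL l x := by
      rw [PowerSeries.smul_eq_C_mul]
      congr 1
      exact (map_intCast (PowerSeries.C (R := ZMod l)) r).symm ▸ rfl
    rw [this]
    exact Submodule.smul_mem _ _ hx

/-- `l`-adic valuation of `2 (l-1) / B_{l-1}` is that of `l`. -/
theorem padicValuation_two_mul_div_bernoulli (l : ℕ) [hl : Fact l.Prime] (hl5 : 5 ≤ l) :
    Rat.padicValuation l ((2 * ((l - 1 : ℕ) : ℚ)) / bernoulli (l - 1)) = WithZero.exp (-1) := by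
  have hlp : l.Prime := hl.out
  have hlne : (l : ℚ) ≠ 0 := Nat.cast_ne_zero.mpr hlp.ne_zero
  have h1 := padicValuation_prime_mul_bernoulli l (by omega)
  rw [map_mul, Rat.padicValuation_self] at h1
  have hB : Rat.padicValuation l (bernoulli (l - 1)) = WithZero.exp (1 : ℤ) := by
    have : Rat.padicValuation l (bernoulli (l - 1)) =
        (WithZero.exp (-1 : ℤ))⁻¹ * (WithZero.exp (-1 : ℤ) *
          Rat.padicValuation l (bernoulli (l - 1))) := by
      rw [← mul_assoc, inv_mul_cancel₀ (WithZero.exp_ne_zero), one_mul]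
    rw [this, h1, mul_one, ← WithZero.exp_neg, neg_neg]
  have h2k : Rat.padicValuation l (2 * ((l - 1 : ℕ) : ℚ)) = 1 := by
    have : (2 * ((l - 1 : ℕ) : ℚ)) = ((2 * (l - 1 : ℕ) : ℕ) : ℤ) := by push_cast; ring
    rw [this, Rat.padicValuation_cast, Int.padicValuation_eq_one_iff, Int.natCast_dvd_natCast]
    intro hdvd
    rcases (Nat.Prime.dvd_mul hlp).mp hdvd with h | h
    · have := Nat.le_of_dvd (by norm_num) h
      omega
    · have := Nat.le_of_dvd (by omega) h
      omega
  rw [map_div₀, h2k, hB, one_div, ← WithZero.exp_neg]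

/-- An integral multiple of `E_{l-1}` with unit multiplier has integral `q`-expansion
`N - l M ∑ σ_{l-2}(n) q^n`. -/
theorem exists_Elm1_series (l : ℕ) [hl : Fact l.Prime] (hl5 : 5 ≤ l) :
    ∃ (N M : ℤ), ¬ (l : ℤ) ∣ N ∧ ∃ F : ModularForm 𝒮ℒ ((l - 1 : ℕ) : ℤ),
      qExpansion 1 F =
        (PowerSeries.C N - PowerSeries.C ((l : ℤ) * M) * sigmaSeries (l - 2)).map castC := by
  have hlp : l.Prime := hl.out
  have hk : 3 ≤ l - 1 := by omega
  have hk2 : Even (l - 1) := by
    have := hlp.odd_of_ne_two (by omega)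
    obtain ⟨m, hm⟩ := this
    exact ⟨m, by omega⟩
  set β : ℚ := (2 * ((l - 1 : ℕ) : ℚ)) / bernoulli (l - 1) with hβ
  have hv := padicValuation_two_mul_div_bernoulli l hl5
  rw [← hβ] at hv
  have hden : ¬ l ∣ β.den := by
    rw [← Rat.padicValuation_le_one_iff, hv, ← WithZero.exp_zero, WithZero.exp_le_exp]
    norm_num
  have hnum : (l : ℤ) ∣ β.num := by
    rw [← Int.padicValuation_lt_one_iff]
    have h1 : Rat.padicValuation l β =
        Int.padicValuation l β.num / Int.padicValuation l (β.den : ℤ) := by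
      conv_lhs => rw [← β.num_div_den]
      rw [map_div₀, Rat.padicValuation_cast, ← Int.cast_natCast, Rat.padicValuation_cast]
    have h2 : Int.padicValuation l (β.den : ℤ) = 1 := by
      rw [Int.padicValuation_eq_one_iff, Int.natCast_dvd_natCast]
      exact hden
    rw [h2, div_one] at h1
    rw [← h1, hv, ← WithZero.exp_zero, WithZero.exp_lt_exp]
    norm_num
  obtain ⟨M, hM⟩ := hnum
  refine ⟨β.den, M, ?_, ((β.den : ℤ) : ℂ) • E hk, ?_⟩
  · rw [Int.natCast_dvd_natCast]; exact hden
  · have hβC : ((β.den : ℤ) : ℂ) * (2 * ((l - 1 : ℕ) : ℂ) / (bernoulli (l - 1) : ℂ)) =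
        (((l : ℤ) * M : ℤ) : ℂ) := by
      have h := β.mul_den_eq_num
      rw [hM] at h
      have h' := congrArg (fun x : ℚ => (x : ℂ)) h
      simp only [hβ] at h'
      push_cast at h' ⊢
      rw [← h']
      ring
    ext m
    rw [FunLike.coe_smul, ModularForm.qExpansion_smul one_pos one_mem_strictPeriods_SL,
      PowerSeries.coeff_smul, E_qExpansion_coeff hk hk2, PowerSeries.coeff_map, map_sub,
      PowerSeries.coeff_C, PowerSeries.coeff_C_mul, sigmaSeries, PowerSeries.coeff_mk]
    have hsub : l - 1 - 1 = l - 2 := by omega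
    split_ifs with hm
    · simp
    · rw [hsub, smul_eq_mul]
      simp only [eq_intCast]
      push_cast at hβC ⊢
      linear_combination (-(σ (l - 2) m : ℂ)) * hβC

/-- **The level-one input (E')**: modulo a prime `l ≥ 5`, the constant `1` is an isobaric
polynomial of weight `l - 1` in the reductions of `E₄` and `E₆`. -/
theorem one_mem_span_monoSetL (l : ℕ) [hl : Fact l.Prime] (hl5 : 5 ≤ l) :
    (1 : PowerSeries (ZMod l)) ∈ Submodule.span (ZMod l) (monoSetL l (l - 1)) := by
  have hlp : l.Prime := hl.out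
  obtain ⟨N, M, hN, F, hF⟩ := exists_Elm1_series l hl5
  obtain ⟨m, hm⟩ := exists_pow_smul_mem_span _ _ rfl F _ hF
  have hred := redL_mem_span (l := l) hm
  -- compute the reduction
  have hcomp : redL l (((1728 : ℤ) ^ m) •
      (PowerSeries.C N - PowerSeries.C ((l : ℤ) * M) * sigmaSeries (l - 2))) =
      (((1728 : ℤ) ^ m * N : ℤ) : ZMod l) • (1 : PowerSeries (ZMod l)) := by
    rw [zsmul_eq_mul, map_mul, map_sub, map_mul, map_intCast]
    have h0 : redL l (PowerSeries.C ((l : ℤ) * M)) = 0 := by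
      rw [redL, PowerSeries.map_C]
      simp
    have h1 : redL l (PowerSeries.C N) = PowerSeries.C ((N : ℤ) : ZMod l) := by
      rw [redL, PowerSeries.map_C]
      simp
    rw [h0, zero_mul, sub_zero, h1, PowerSeries.smul_eq_C_mul, mul_one]
    push_cast
    rw [map_mul, map_pow]
    congr 1
  rw [hcomp] at hred
  -- the multiplier is a unit
  have hunit : (((1728 : ℤ) ^ m * N : ℤ) : ZMod l) ≠ 0 := by
    rw [Ne, ZMod.intCast_zmod_eq_zero_iff_dvd]
    intro hdvd
    have hlZ : Prime (l : ℤ) := Nat.prime_iff_prime_int.mp hlp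
    rcases hlZ.dvd_or_dvd hdvd with h | h
    · have h' := hlZ.dvd_of_dvd_pow h
      have h'' : l ∣ 1728 := by exact_mod_cast h'
      have h3 : l ∣ 2 ^ 6 * 3 ^ 3 := by norm_num; exact h''
      rcases (Nat.Prime.dvd_mul hlp).mp h3 with h4 | h4
      · have := (Nat.prime_dvd_prime_iff_eq hlp Nat.prime_two).mp (hlp.dvd_of_dvd_pow h4)
        omega
      · have := (Nat.prime_dvd_prime_iff_eq hlp Nat.prime_three).mp (hlp.dvd_of_dvd_pow h4)
        omega
    · exact hN h
  have := Submodule.smul_mem _ ((((1728 : ℤ) ^ m * N : ℤ) : ZMod l))⁻¹ hred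
  rwa [smul_smul, inv_mul_cancel₀ hunit, one_smul] at this

end

end Fermat.Agent.S16.U5
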